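/-
GATE-E / E8.6 IRR2, the PRIME-TO-`p` IMAGE CASE (helper81; claims GE8-IRR2-PRIMETOP).  Mathlib only.

Abstract setting: `ρ : G →* End(V)`, `V` a plane over `ZMod p`, irreducible; `c ∈ G` an "odd
involution" (`ρ c ^ 2 = 1`, `det ρ c = -1`: complex conjugation); `I ≤ G` (inertia at `p`) with
* `hgen` : every normal `U ≤ G` containing `ker ρ` and `I` is `⊤` (Minkowski: `ρ` unramified
  outside `p`);
* `hcyc` : for every hom `f : G → H` into a finite `2`-group killing `ker ρ`, `f(I)` is cyclic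
  (tame inertia: `GP/Loc/TamePQuot`).

Results (NO number fields, NO shape of `ρ|_I`):
* `false_of_isPGroup_two`   : the image is not a `2`-group (nilpotent ⟹ generated by `f(I)` ⟹
  cyclic ⟹ the `+1`-eigenline of `ρ c` is stable);
* `three_dvd_card_range`    : **`p = 3`** ⟹ `3 ∣ #im ρ` (so the image contains a transvection);
* `not_comm_of_index_two`   : **`p = 5`**, `det` onto ⟹ the image of EVERY subgroup of index `≤ 2`
  is non-commutative (an element of odd prime order has no eigenline; the character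
  `(det, G/G')` to the `2`-group `𝔽₅ˣ × {±1}` has cyclic image but contains `C₂ × C₂`);
* `comm_of_stable_line`     : (Maschke-free) if `im ρ` has no element of order `p`, a subgroup
  stabilising a line of `K ⊗ V` (any field `K`) has commutative image;
* `no_stable_line_five`     : **`p = 5`**, no element of order `5` in `im ρ` ⟹ for every subgroup
  `G'` of index `≤ 2` and every field `K`, `K ⊗ V` has no `G'`-stable line (= `habs` + `hTW` of
  the frozen S56 in abstract form).
-/
import Mathlib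

set_option autoImplicit false
set_option linter.unusedSectionVars false
set_option linter.style.haveILetI false

open scoped TensorProduct

namespace Fermat.Agent.GE8.Irr2.PrimeToP

open Module Polynomial

/-! ### linear algebra in a plane -/

section LinAlg

variable {F : Type*} [Field F] {V : Type*} [AddCommGroup V] [Module F V] [Module.Finite F V]

/-- the characteristic polynomial in a plane -/
theorem charpoly_plane (hV : finrank F V = 2) (f : Module.End F V) :
    f.charpoly = X ^ 2 - C (LinearMap.trace F V f) * X + C (LinearMap.det f) := by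
  classical
  have hcard : Fintype.card (Free.ChooseBasisIndex F V) = 2 := by
    rw [← finrank_eq_card_chooseBasisIndex, hV]
  let b : Basis (Fin 2) F V :=
    (Free.chooseBasis F V).reindex (Fintype.equivFinOfCardEq hcard)
  rw [← LinearMap.charpoly_toMatrix f b, Matrix.charpoly_fin_two,
    ← LinearMap.trace_eq_matrix_trace F b f, LinearMap.det_toMatrix b f]

/-- Cayley–Hamilton in a plane -/
theorem cayley_plane (hV : finrank F V = 2) (f : Module.End F V) :
    f * f - LinearMap.trace F V f • f + LinearMap.det f • (1 : Module.End F V) = 0 := by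
  have h := LinearMap.aeval_self_charpoly f
  rw [charpoly_plane hV f] at h
  simp only [map_add, map_sub, map_mul, map_pow, aeval_X, aeval_C] at h
  rw [pow_two] at h
  rw [← h]
  simp [Algebra.algebraMap_eq_smul_one]

/-- an endomorphism of a plane with determinant `1` fixing a nonzero vector is unipotent -/
theorem sub_one_sq_eq_zero_of_fixed (hV : finrank F V = 2) (Z : Module.End F V)
    (hdet : LinearMap.det Z = 1) {v : V} (hv : v ≠ 0) (hZv : Z v = v) : (Z - 1) ^ 2 = 0 := by
  have h := cayley_plane hV Z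
  have h1 := congrArg (fun f : Module.End F V => f v) h
  simp only [LinearMap.add_apply, LinearMap.sub_apply, Module.End.mul_apply, LinearMap.smul_apply,
    Module.End.one_apply, LinearMap.zero_apply, hZv, hdet, one_smul] at h1
  have h2 : ((2 : F) - LinearMap.trace F V Z) • v = 0 := by
    rw [sub_smul, two_smul]
    rw [← h1]
    abel
  have htr : LinearMap.trace F V Z = 2 := by
    rcases smul_eq_zero.mp h2 with h3 | h3
    · exact (sub_eq_zero.mp h3).symm
    · exact absurd h3 hv
  rw [htr, hdet, one_smul] at h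
  rw [pow_two, sub_mul, mul_sub, mul_sub, mul_one, one_mul, mul_one, ← h, two_smul]
  abel

/-- An involution of determinant `-1` of a plane (`2 ≠ 0`) has a proper nonzero fixed space. -/
theorem ker_sub_one_ne (hV : finrank F V = 2) (h2 : (2 : F) ≠ 0) (c : Module.End F V)
    (hc : c * c = 1) (hdet : LinearMap.det c = -1) :
    LinearMap.ker (c - 1) ≠ ⊥ ∧ LinearMap.ker (c - 1) ≠ ⊤ := by
  have hne : (1 : F) ≠ -1 := by
    intro h
    apply h2
    have : (2 : F) = 1 + 1 := by norm_num
    rw [this]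
    nth_rewrite 2 [h]
    ring
  constructor
  · intro h
    -- `c - 1` injective, `(c - 1) (c + 1) = 0` ⟹ `c = -1`
    have h1 : ∀ x, (c + 1) x = 0 := by
      intro x
      have h3 : (c - 1) ((c + 1) x) = 0 := by
        have : (c - 1) * (c + 1) = 0 := by
          rw [sub_mul, mul_add, mul_add, hc, mul_one, one_mul, one_mul]
          abel
        rw [← Module.End.mul_apply, this, LinearMap.zero_apply]
      have h4 : (c + 1) x ∈ LinearMap.ker (c - 1) := h3
      rw [h] at h4
      exact (Submodule.mem_bot F).1 h4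
    have h5 : c = (-1 : F) • (1 : Module.End F V) := by
      refine LinearMap.ext fun x => ?_
      have := h1 x
      rw [LinearMap.add_apply, Module.End.one_apply] at this
      rw [LinearMap.smul_apply, Module.End.one_apply, neg_one_smul]
      exact eq_neg_of_add_eq_zero_left this
    rw [h5, LinearMap.det_smul, hV, map_one] at hdet
    apply hne
    rw [← hdet]
    ring
  · intro h
    have h5 : c = 1 := by
      refine LinearMap.ext fun x => ?_
      have h4 : x ∈ LinearMap.ker (c - 1) := by rw [h]; exact Submodule.mem_top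
      rw [LinearMap.mem_ker, LinearMap.sub_apply, Module.End.one_apply, sub_eq_zero] at h4
      rw [h4, Module.End.one_apply]
    rw [h5, map_one] at hdet
    exact hne hdet

/-- commuting endomorphisms preserve the fixed space -/
theorem ker_sub_one_stable (c n : Module.End F V) (h : n * c = c * n) :
    ∀ x ∈ LinearMap.ker (c - 1), n x ∈ LinearMap.ker (c - 1) := by
  intro x hx
  rw [LinearMap.mem_ker, LinearMap.sub_apply, Module.End.one_apply, sub_eq_zero] at hx ⊢
  have := congrArg (fun f : Module.End F V => f x) h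
  simp only [Module.End.mul_apply] at this
  rw [hx] at this
  exact this.symm

/-- finrank of a proper nonzero subspace of a plane -/
theorem finrank_eq_one_of_ne (hV : finrank F V = 2) (L : Submodule F V) (h0 : L ≠ ⊥)
    (h1 : L ≠ ⊤) : finrank F L = 1 := by
  have h2 : finrank F L < 2 := by
    rw [← hV]
    exact Submodule.finrank_lt h1
  have h3 : 0 < finrank F L := by
    rw [Nat.pos_iff_ne_zero]
    intro h
    exact h0 (Submodule.finrank_eq_zero.mp h)
  omega

/-- an endomorphism of finite order `ℓ` (no nontrivial `ℓ`-th roots of unity in `F`) is the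
identity on every stable line -/
theorem eq_self_of_stable_line {ℓ : ℕ} (hroot : ∀ a : F, a ^ ℓ = 1 → a = 1)
    (u : Module.End F V) (hu : u ^ ℓ = 1) (L : Submodule F V) (hL : finrank F L = 1)
    (hst : ∀ x ∈ L, u x ∈ L) : ∀ x ∈ L, u x = x := by
  obtain ⟨⟨v, hvL⟩, hv0, hv⟩ := finrank_eq_one_iff'.mp hL
  have hv0' : v ≠ 0 := fun h => hv0 (Subtype.ext h)
  obtain ⟨a, ha⟩ := hv ⟨u v, hst v hvL⟩
  have ha' : u v = a • v := by
    have := congrArg Subtype.val ha
    exact this.symm
  have hpow : ∀ k : ℕ, (u ^ k) v = a ^ k • v := by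
    intro k
    induction k with
    | zero => simp
    | succ k ih => rw [pow_succ, Module.End.mul_apply, ha', map_smul, ih, smul_smul, pow_succ, mul_comm]
  have h1 : a ^ ℓ • v = v := by rw [← hpow, hu, Module.End.one_apply]
  have h2 : (a ^ ℓ - 1) • v = 0 := by rw [sub_smul, h1, one_smul, sub_self]
  have h3 : a ^ ℓ = 1 := by
    rcases smul_eq_zero.mp h2 with h | h
    · exact sub_eq_zero.mp h
    · exact absurd h hv0'
  have h4 : u v = v := by rw [ha', hroot a h3, one_smul]
  intro x hx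
  obtain ⟨s, hs⟩ := hv ⟨x, hx⟩
  have hs' : x = s • v := by
    have := congrArg Subtype.val hs
    exact this.symm
  rw [hs', map_smul, h4]

/-- elements of a line are multiples of any nonzero element -/
theorem exists_smul_eq_of_mem_line (L : Submodule F V) (hL : finrank F L = 1) {v : V}
    (hvL : v ∈ L) (hv : v ≠ 0) {x : V} (hx : x ∈ L) : ∃ a : F, x = a • v := by
  have hle : F ∙ v ≤ L := (Submodule.span_singleton_le_iff_mem v L).2 hvL
  have h : F ∙ v = L :=
    Submodule.eq_of_le_of_finrank_eq hle (by rw [finrank_span_singleton hv, hL])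
  rw [← h] at hx
  obtain ⟨a, ha⟩ := Submodule.mem_span_singleton.1 hx
  exact ⟨a, ha.symm⟩

omit [Module.Finite F V] in
theorem eq_one_of_smul_eq_self {a : F} {v : V} (hv : v ≠ 0) (h : a • v = v) : a = 1 := by
  have h3 : (a - 1) • v = 0 := by rw [sub_smul, h, one_smul, sub_self]
  rcases smul_eq_zero.mp h3 with h | h
  · exact sub_eq_zero.mp h
  · exact absurd h hv

end LinAlg

/-! ### nilpotent groups -/

section Groups

/-- In a finite nilpotent group a subgroup with normal closure `⊤` is `⊤`. -/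
theorem eq_top_of_normalClosure_eq_top {N : Type*} [Group N] [Finite N] [Group.IsNilpotent N]
    (K : Subgroup N) (h : Subgroup.normalClosure (K : Set N) = ⊤) : K = ⊤ := by
  by_contra hK
  obtain ⟨M, hM, hKM⟩ := (eq_top_or_exists_le_coatom K).resolve_left hK
  have hn : M.Normal := Subgroup.NormalizerCondition.normal_of_coatom M
    Group.normalizerCondition_of_isNilpotent hM
  have h1 : Subgroup.normalClosure (K : Set N) ≤ M := Subgroup.normalClosure_le_normal hKM
  rw [h] at h1
  exact hM.1 (top_le_iff.mp h1)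

end Groups

/-! ### the core -/

section Core

variable {p : ℕ} [Fact p.Prime] {G : Type} [Group G] {V : Type} [AddCommGroup V]
  [Module (ZMod p) V] [Module.Finite (ZMod p) V]
  (ρ : G →* Module.End (ZMod p) V) (I : Subgroup G) (c : G)

theorem two_ne_zero_zmod (hp2 : p ≠ 2) : (2 : ZMod p) ≠ 0 := by
  intro h
  have h1 : ((2 : ℕ) : ZMod p) = 0 := by exact_mod_cast h
  rw [ZMod.natCast_eq_zero_iff] at h1
  exact hp2 ((Nat.prime_dvd_prime_iff_eq (Fact.out : p.Prime) Nat.prime_two).mp h1)

theorem finite_end : Finite (Module.End (ZMod p) V) := by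
  haveI : Finite V := Module.finite_of_finite (ZMod p)
  exact Finite.of_injective (fun f : Module.End (ZMod p) V => (f : V → V)) DFunLike.coe_injective

theorem ker_le_ker_toHomUnits : ρ.ker ≤ ρ.toHomUnits.ker := by
  intro g hg
  rw [MonoidHom.mem_ker] at hg ⊢
  apply Units.ext
  rw [MonoidHom.coe_toHomUnits, hg, Units.val_one]

variable (hV : finrank (ZMod p) V = 2) (hp2 : p ≠ 2)
  (hirr : ∀ L : Submodule (ZMod p) V, (∀ g, ∀ x ∈ L, ρ g x ∈ L) → L = ⊥ ∨ L = ⊤)
  (hgen : ∀ U : Subgroup G, U.Normal → ρ.ker ≤ U → I ≤ U → U = ⊤)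
  (hcyc : ∀ (H : Type) [Group H] [Finite H] (f : G →* H), ρ.ker ≤ f.ker → IsPGroup 2 H →
    IsCyclic ↥(I.map f))
  (hc : ρ c * ρ c = 1) (hcdet : LinearMap.det (ρ c) = -1)

include hV hp2 hirr hc hcdet in
/-- an irreducible odd representation on a plane does not have commutative image -/
theorem false_of_comm (hcomm : ∀ g, ρ g * ρ c = ρ c * ρ g) : False := by
  obtain ⟨h0, h1⟩ := ker_sub_one_ne hV (two_ne_zero_zmod hp2) (ρ c) hc hcdet
  rcases hirr (LinearMap.ker (ρ c - 1))
    (fun g => ker_sub_one_stable (ρ c) (ρ g) (hcomm g)) with h | h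
  · exact h0 h
  · exact h1 h

include hV hp2 hirr hgen hcyc hc hcdet in
/-- **the image is not a `2`-group** -/
theorem false_of_isPGroup_two (h2 : IsPGroup 2 ρ.toHomUnits.range) : False := by
  haveI : Fact (Nat.Prime 2) := ⟨Nat.prime_two⟩
  haveI : Finite (Module.End (ZMod p) V) := finite_end
  set f : G →* ρ.toHomUnits.range := ρ.toHomUnits.rangeRestrict with hf
  have hfs : Function.Surjective f := ρ.toHomUnits.rangeRestrict_surjective
  have hker : ρ.ker ≤ f.ker := by
    intro g hg
    rw [MonoidHom.mem_ker]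
    apply Subtype.ext
    exact (MonoidHom.mem_ker).1 (ker_le_ker_toHomUnits ρ hg)
  haveI : Group.IsNilpotent ρ.toHomUnits.range := h2.isNilpotent
  -- the normal closure of the image of `I` is everything
  have hnc : Subgroup.normalClosure (↑(I.map f) : Set ↥ρ.toHomUnits.range) = ⊤ := by
    have hU := hgen ((Subgroup.normalClosure (↑(I.map f) : Set ↥ρ.toHomUnits.range)).comap f)
      (Subgroup.Normal.comap Subgroup.normalClosure_normal f)
      (hker.trans (Subgroup.ker_le_comap f _))
      (fun x hx => Subgroup.subset_normalClosure (Subgroup.mem_map_of_mem f hx))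
    rw [eq_top_iff]
    intro n _
    obtain ⟨g, rfl⟩ := hfs n
    have : g ∈ (Subgroup.normalClosure (↑(I.map f) : Set ↥ρ.toHomUnits.range)).comap f := by
      rw [hU]; exact Subgroup.mem_top g
    exact this
  have htop : I.map f = ⊤ := eq_top_of_normalClosure_eq_top _ hnc
  have hcy : IsCyclic ↥(I.map f) := hcyc _ f hker h2
  -- the image is commutative
  obtain ⟨⟨t, ht⟩, hgen'⟩ := hcy.exists_generator
  have hpow : ∀ g : G, ∃ k : ℤ, f g = t ^ k := by
    intro g
    have hg : f g ∈ I.map f := by rw [htop]; exact Subgroup.mem_top _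
    obtain ⟨k, hk⟩ := Subgroup.mem_zpowers_iff.1 (hgen' ⟨f g, hg⟩)
    exact ⟨k, (congrArg Subtype.val hk).symm⟩
  apply false_of_comm ρ c hV hp2 hirr hc hcdet
  intro g
  obtain ⟨k, hk⟩ := hpow g
  obtain ⟨m, hm⟩ := hpow c
  have h3 : f g * f c = f c * f g := by
    rw [hk, hm, ← zpow_add, ← zpow_add, add_comm]
  have h4 := congrArg (fun x : ρ.toHomUnits.range => ((x : (Module.End (ZMod p) V)ˣ) :
    Module.End (ZMod p) V)) h3
  simpa [hf] using h4

include hV in
/-- the order of `GL₂(𝔽_p)` -/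
theorem card_units_end :
    Nat.card (Module.End (ZMod p) V)ˣ = (p ^ 2 - 1) * (p ^ 2 - p) := by
  classical
  let b : Basis (Fin 2) (ZMod p) V := Module.finBasisOfFinrankEq (ZMod p) V hV
  have e : (Module.End (ZMod p) V)ˣ ≃* (Matrix (Fin 2) (Fin 2) (ZMod p))ˣ :=
    Units.mapEquiv (LinearMap.toMatrixAlgEquiv b).toMulEquiv
  rw [Nat.card_congr e.toEquiv]
  have h := Matrix.card_GL_field (𝔽 := ZMod p) 2
  rw [ZMod.card, Fin.prod_univ_two] at h
  simpa using h

end Core

/-! ### `p = 3` -/

section Three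

variable {G : Type} [Group G] {V : Type} [AddCommGroup V]
  [Module (ZMod 3) V] [Module.Finite (ZMod 3) V]
  (ρ : G →* Module.End (ZMod 3) V) (I : Subgroup G) (c : G)
  (hV : finrank (ZMod 3) V = 2)
  (hirr : ∀ L : Submodule (ZMod 3) V, (∀ g, ∀ x ∈ L, ρ g x ∈ L) → L = ⊥ ∨ L = ⊤)
  (hgen : ∀ U : Subgroup G, U.Normal → ρ.ker ≤ U → I ≤ U → U = ⊤)
  (hcyc : ∀ (H : Type) [Group H] [Finite H] (f : G →* H), ρ.ker ≤ f.ker → IsPGroup 2 H →
    IsCyclic ↥(I.map f))
  (hc : ρ c * ρ c = 1) (hcdet : LinearMap.det (ρ c) = -1)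

instance fact_prime_three : Fact (Nat.Prime 3) := ⟨Nat.prime_three⟩

include hV hirr hgen hcyc hc hcdet in
/-- **`p = 3`**: the order of the image is divisible by `3`. -/
theorem three_dvd_card_range : 3 ∣ Nat.card ρ.toHomUnits.range := by
  by_contra h
  apply false_of_isPGroup_two ρ I c hV (by norm_num) hirr hgen hcyc hc hcdet
  have h1 : Nat.card ρ.toHomUnits.range ∣ Nat.card (Module.End (ZMod 3) V)ˣ :=
    Subgroup.card_subgroup_dvd_card _
  rw [card_units_end hV] at h1
  have h2 : Nat.card ρ.toHomUnits.range ∣ 2 ^ 4 := by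
    have hcop : Nat.Coprime (Nat.card ρ.toHomUnits.range) 3 :=
      ((Nat.Prime.coprime_iff_not_dvd Nat.prime_three).2 h).symm
    have h3 : Nat.card ρ.toHomUnits.range ∣ 2 ^ 4 * 3 := by
      norm_num at h1 ⊢
      exact h1
    exact hcop.dvd_of_dvd_mul_right h3
  obtain ⟨k, -, hk⟩ := (Nat.dvd_prime_pow Nat.prime_two).1 h2
  exact IsPGroup.of_card hk

end Three

/-! ### `p = 5` -/

section Five

instance fact_prime_five : Fact (Nat.Prime 5) := ⟨by norm_num⟩

variable {G : Type} [Group G] {V : Type} [AddCommGroup V]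
  [Module (ZMod 5) V] [Module.Finite (ZMod 5) V]
  (ρ : G →* Module.End (ZMod 5) V) (I : Subgroup G) (c : G)
  (hV : finrank (ZMod 5) V = 2)
  (hirr : ∀ L : Submodule (ZMod 5) V, (∀ g, ∀ x ∈ L, ρ g x ∈ L) → L = ⊥ ∨ L = ⊤)
  (hgen : ∀ U : Subgroup G, U.Normal → ρ.ker ≤ U → I ≤ U → U = ⊤)
  (hcyc : ∀ (H : Type) [Group H] [Finite H] (f : G →* H), ρ.ker ≤ f.ker → IsPGroup 2 H →
    IsCyclic ↥(I.map f))
  (hc : ρ c * ρ c = 1) (hcdet : LinearMap.det (ρ c) = -1)

/-- no nontrivial roots of unity of odd order in `𝔽₅` -/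
theorem root_eq_one_five {ℓ : ℕ} (hℓ : Odd ℓ) (a : ZMod 5) (ha : a ^ ℓ = 1) : a = 1 := by
  have ha0 : a ≠ 0 := by
    rintro rfl
    rw [zero_pow (Nat.pos_iff_ne_zero.mp hℓ.pos)] at ha
    exact zero_ne_one ha
  have h4 : a ^ 4 = 1 := ZMod.pow_card_sub_one_eq_one ha0
  have hg : Nat.gcd ℓ 4 = 1 := by
    have : Nat.Coprime ℓ (2 ^ 2) := Nat.Coprime.pow_right 2 (Nat.coprime_two_right.mpr hℓ)
    exact this
  have := pow_gcd_eq_one.2 ⟨ha, h4⟩
  rwa [hg, pow_one] at this

include hc in
/-- the decomposition `V = ker (c - 1) + ker (c + 1)`: an endomorphism which is the identity on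
both eigenspaces of `ρ c` is the identity -/
theorem eq_one_of_eq_on_eigenspaces (u : Module.End (ZMod 5) V)
    (h1 : ∀ x ∈ LinearMap.ker (ρ c - 1), u x = x)
    (h2 : ∀ x ∈ LinearMap.ker (-(ρ c) - 1), u x = x) : u = 1 := by
  refine LinearMap.ext fun x => ?_
  have hcc : ∀ y, ρ c (ρ c y) = y := by
    intro y
    have := congrArg (fun f : Module.End (ZMod 5) V => f y) hc
    simpa using this
  have hx1 : ρ c x + x ∈ LinearMap.ker (ρ c - 1) := by
    rw [LinearMap.mem_ker, LinearMap.sub_apply, Module.End.one_apply, map_add, hcc]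
    abel
  have hx2 : x - ρ c x ∈ LinearMap.ker (-(ρ c) - 1) := by
    rw [LinearMap.mem_ker, LinearMap.sub_apply, Module.End.one_apply, LinearMap.neg_apply,
      map_sub, hcc]
    abel
  have h3 : (2 : ZMod 5) • x = (ρ c x + x) + (x - ρ c x) := by
    rw [two_smul]; abel
  have h4 : (2 : ZMod 5) • u x = (2 : ZMod 5) • x := by
    rw [← map_smul, h3, map_add, h1 _ hx1, h2 _ hx2]
  have h5 : (3 : ZMod 5) • ((2 : ZMod 5) • u x) = (3 : ZMod 5) • ((2 : ZMod 5) • x) := by rw [h4]
  rw [smul_smul, smul_smul] at h5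
  have h6 : (3 : ZMod 5) * 2 = 1 := by decide
  rw [h6, one_smul, one_smul] at h5
  rw [h5, Module.End.one_apply]


include hV hirr hgen hcyc hc hcdet in
/-- **`p = 5`, image of order prime to `5`**: the image of every subgroup of index `≤ 2` is
non-commutative. -/
theorem not_comm_of_index_two
    (hdet : ∃ g, LinearMap.det (ρ g) = 2) (G' : Subgroup G) (hG' : G'.index = 2 ∨ G' = ⊤) :
    ¬ ∀ a ∈ G', ∀ b ∈ G', ρ a * ρ b = ρ b * ρ a := by
  intro hcomm
  haveI : Finite (Module.End (ZMod 5) V) := finite_end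
  have hp2 : (5 : ℕ) ≠ 2 := by norm_num
  -- reduction to `index = 2`, `ker ρ ≤ G'`
  have hall : (∀ g : G, ∃ g' ∈ G', ρ g = ρ g') → False := by
    intro h
    apply false_of_comm ρ c hV hp2 hirr hc hcdet
    intro g
    obtain ⟨g', hg', hgg'⟩ := h g
    obtain ⟨c', hc', hcc'⟩ := h c
    rw [hgg', hcc']
    exact hcomm g' hg' c' hc'
  have hidx : G'.index = 2 := by
    rcases hG' with h | h
    · exact h
    · exfalso
      exact hall fun g => ⟨g, by rw [h]; exact Subgroup.mem_top g, rfl⟩
  have hkerG' : ρ.ker ≤ G' := by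
    by_contra hk
    obtain ⟨k, hkk, hkG⟩ := SetLike.not_le_iff_exists.mp hk
    apply hall
    intro g
    by_cases hg : g ∈ G'
    · exact ⟨g, hg, rfl⟩
    · refine ⟨g * k, ?_, ?_⟩
      · rw [Subgroup.mul_mem_iff_of_index_two hidx]
        exact ⟨fun h => absurd h hg, fun h => absurd h hkG⟩
      · rw [map_mul, (MonoidHom.mem_ker).1 hkk, mul_one]
  haveI hnorm : G'.Normal := Subgroup.normal_of_index_eq_two hidx
  -- an element of odd prime order
  set f : G →* ρ.toHomUnits.range := ρ.toHomUnits.rangeRestrict with hf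
  have hfs : Function.Surjective f := ρ.toHomUnits.rangeRestrict_surjective
  have hnot2 : ¬ IsPGroup 2 ρ.toHomUnits.range := fun h2 =>
    false_of_isPGroup_two ρ I c hV hp2 hirr hgen hcyc hc hcdet h2
  have hcardpos : Nat.card ρ.toHomUnits.range ≠ 0 := Nat.card_pos.ne'
  obtain ⟨ℓ, hℓ, hℓdvd, hℓ2⟩ : ∃ ℓ : ℕ, ℓ.Prime ∧ ℓ ∣ Nat.card ρ.toHomUnits.range ∧ ℓ ≠ 2 := by
    by_contra hno
    push Not at hno
    apply hnot2
    have := Nat.eq_prime_pow_of_unique_prime_dvd hcardpos
      (p := 2) (fun {d} hd hdd => hno d hd hdd)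
    exact IsPGroup.of_card this
  have hℓodd : Odd ℓ := hℓ.odd_of_ne_two hℓ2
  haveI : Fact ℓ.Prime := ⟨hℓ⟩
  obtain ⟨x, hx⟩ := exists_prime_orderOf_dvd_card' ℓ hℓdvd
  obtain ⟨g₀, rfl⟩ := hfs x
  obtain ⟨m, hm⟩ := id hℓodd
  set w : G := (g₀ ^ (m + 1)) ^ 2 with hw
  have hwG' : w ∈ G' := Subgroup.sq_mem_of_index_two hidx _
  have hfw : f w = f g₀ := by
    rw [hw, ← pow_mul, map_pow]
    have h1 : (m + 1) * 2 = ℓ + 1 := by omega
    rw [h1, pow_succ, ← hx, pow_orderOf_eq_one, one_mul]
  have hρw : ρ w = ρ g₀ := by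
    have := congrArg (fun x : ρ.toHomUnits.range => ((x : (Module.End (ZMod 5) V)ˣ) :
      Module.End (ZMod 5) V)) hfw
    simpa [hf] using this
  have huℓ : ρ w ^ ℓ = 1 := by
    have h1 : f g₀ ^ ℓ = 1 := by rw [← hx, pow_orderOf_eq_one]
    have := congrArg (fun x : ρ.toHomUnits.range => ((x : (Module.End (ZMod 5) V)ˣ) :
      Module.End (ZMod 5) V)) h1
    rw [hρw]
    simpa [hf] using this
  have hu1 : ρ w ≠ 1 := by
    intro h
    have h1 : f g₀ = 1 := by
      apply Subtype.ext
      apply Units.ext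
      simpa [hf] using (hρw.symm.trans h)
    rw [h1, orderOf_one] at hx
    exact hℓ.one_lt.ne hx
  -- `c ∉ G'`
  have hcG' : c ∉ G' := by
    intro hcG
    apply hu1
    have hcm : ρ w * ρ c = ρ c * ρ w := hcomm w hwG' c hcG
    have hV2 := two_ne_zero_zmod (p := 5) hp2
    obtain ⟨h0, h1⟩ := ker_sub_one_ne hV hV2 (ρ c) hc hcdet
    have hc' : (-(ρ c)) * (-(ρ c)) = 1 := by rw [neg_mul_neg, hc]
    have hcdet' : LinearMap.det (-(ρ c)) = -1 := by
      have : -(ρ c) = (-1 : ZMod 5) • ρ c := by rw [neg_one_smul]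
      rw [this, LinearMap.det_smul, hV, hcdet]
      ring
    obtain ⟨h0', h1'⟩ := ker_sub_one_ne hV hV2 (-(ρ c)) hc' hcdet'
    have hcm' : ρ w * (-(ρ c)) = (-(ρ c)) * ρ w := by rw [mul_neg, neg_mul, hcm]
    apply eq_one_of_eq_on_eigenspaces ρ c hc (ρ w)
    · exact eq_self_of_stable_line (root_eq_one_five hℓodd) (ρ w) huℓ _
        (finrank_eq_one_of_ne hV _ h0 h1) (ker_sub_one_stable (ρ c) (ρ w) hcm)
    · exact eq_self_of_stable_line (root_eq_one_five hℓodd) (ρ w) huℓ _
        (finrank_eq_one_of_ne hV _ h0' h1') (ker_sub_one_stable (-(ρ c)) (ρ w) hcm')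
  -- an element `h ∈ G'` whose determinant has order `4`
  obtain ⟨g₁, hg₁⟩ := hdet
  have hdetcinv : LinearMap.det (ρ c⁻¹) = -1 := by
    have h1 : ρ c⁻¹ * ρ c = 1 := by rw [← map_mul, inv_mul_cancel, map_one]
    have h2 := congrArg LinearMap.det h1
    rw [map_mul, hcdet, map_one] at h2
    have h3 : LinearMap.det (ρ c⁻¹) * -1 * -1 = 1 * -1 := by rw [h2]
    simpa using h3
  obtain ⟨h, hhG', hhdet⟩ : ∃ h ∈ G', LinearMap.det (ρ h) ^ 2 = -1 := by
    by_cases hg : g₁ ∈ G'
    · exact ⟨g₁, hg, by rw [hg₁]; decide⟩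
    · refine ⟨c⁻¹ * g₁, ?_, ?_⟩
      · rw [Subgroup.mul_mem_iff_of_index_two hidx]
        exact ⟨fun h => absurd (by simpa using G'.inv_mem h) hcG', fun h => absurd h hg⟩
      · rw [map_mul, map_mul, hdetcinv, hg₁]; decide
  -- the character `(det, sign)`
  classical
  let sgn : G →* ℤˣ :=
    { toFun := fun g => if g ∈ G' then 1 else -1
      map_one' := by simp [G'.one_mem]
      map_mul' := by
        intro a b
        by_cases ha : a ∈ G' <;> by_cases hb : b ∈ G' <;>
          simp [ha, hb, Subgroup.mul_mem_iff_of_index_two hidx] }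
  let detu : G →* (ZMod 5)ˣ :=
    (Units.map (LinearMap.det : Module.End (ZMod 5) V →* ZMod 5)).comp ρ.toHomUnits
  have hdetu : ∀ g, ((detu g : (ZMod 5)ˣ) : ZMod 5) = LinearMap.det (ρ g) := fun g => rfl
  let χ : G →* (ZMod 5)ˣ × ℤˣ := detu.prod sgn
  have hχ : ∀ g, χ g = (detu g, sgn g) := fun g => rfl
  have hT : IsPGroup 2 ((ZMod 5)ˣ × ℤˣ) := by
    apply IsPGroup.of_card (n := 3)
    rw [Nat.card_prod, Nat.card_eq_fintype_card, Nat.card_eq_fintype_card,
      ZMod.card_units_eq_totient, Nat.totient_prime (by norm_num), Fintype.card_units_int]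
    norm_num
  have hkerχ : ρ.ker ≤ χ.ker := by
    intro g hg
    rw [MonoidHom.mem_ker, hχ, Prod.mk_eq_one]
    constructor
    · apply Units.ext
      rw [hdetu, (MonoidHom.mem_ker).1 hg, map_one, Units.val_one]
    · show (if g ∈ G' then (1 : ℤˣ) else -1) = 1
      rw [if_pos (hkerG' hg)]
  have hcy : IsCyclic ↥(I.map χ) := hcyc _ χ hkerχ hT
  have hU := hgen ((I.map χ).comap χ) (Subgroup.Normal.comap (Subgroup.normal_of_isMulCommutative _) χ)
    (hkerχ.trans (Subgroup.ker_le_comap χ _)) (fun x hx => Subgroup.mem_map_of_mem χ hx)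
  have hmem : ∀ g, χ g ∈ I.map χ := by
    intro g
    have : g ∈ (I.map χ).comap χ := by rw [hU]; exact Subgroup.mem_top g
    exact this
  -- three distinct solutions of `x ^ 2 = 1` in a cyclic group
  let e₀ : ↥(I.map χ) := 1
  let e₁ : ↥(I.map χ) := ⟨χ c, hmem c⟩
  let e₂ : ↥(I.map χ) := ⟨χ (h * h), hmem (h * h)⟩
  have hsc : sgn c = -1 := by
    show (if c ∈ G' then (1 : ℤˣ) else -1) = -1
    rw [if_neg hcG']
  have hsh : sgn (h * h) = 1 := by
    show (if h * h ∈ G' then (1 : ℤˣ) else -1) = 1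
    rw [if_pos (G'.mul_mem hhG' hhG')]
  have hdc : detu c = -1 := by
    apply Units.ext
    rw [hdetu, hcdet]; rfl
  have hdh : detu (h * h) = -1 := by
    apply Units.ext
    rw [hdetu, map_mul, map_mul, ← pow_two, hhdet]; rfl
  have h1sq : e₁ ^ 2 = 1 := by
    apply Subtype.ext
    show χ c ^ 2 = 1
    rw [hχ, hsc, hdc]
    rfl
  have h2sq : e₂ ^ 2 = 1 := by
    apply Subtype.ext
    show χ (h * h) ^ 2 = 1
    rw [hχ, hsh, hdh]
    rfl
  have h01 : e₀ ≠ e₁ := by
    intro he
    have h3 : (1 : (ZMod 5)ˣ × ℤˣ) = χ c := congrArg Subtype.val he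
    rw [hχ, hsc] at h3
    have h4 : (1 : ℤˣ) = -1 := congrArg Prod.snd h3
    exact absurd h4 (by decide)
  have h02 : e₀ ≠ e₂ := by
    intro he
    have h3 : (1 : (ZMod 5)ˣ × ℤˣ) = χ (h * h) := congrArg Subtype.val he
    rw [hχ, hdh] at h3
    have h4 : (1 : (ZMod 5)ˣ) = -1 := congrArg Prod.fst h3
    exact absurd h4 (by decide)
  have h12 : e₁ ≠ e₂ := by
    intro he
    have h3 : χ c = χ (h * h) := congrArg Subtype.val he
    rw [hχ, hχ, hsc, hsh] at h3
    have h4 : (-1 : ℤˣ) = 1 := congrArg Prod.snd h3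
    exact absurd h4 (by decide)
  have hle := IsCyclic.card_pow_eq_one_le (α := ↥(I.map χ)) (n := 2) (by norm_num)
  have hsub : ({e₀, e₁, e₂} : Finset ↥(I.map χ)) ⊆
      Finset.univ.filter (fun a : ↥(I.map χ) => a ^ 2 = 1) := by
    intro a ha
    simp only [Finset.mem_insert, Finset.mem_singleton] at ha
    rw [Finset.mem_filter]
    refine ⟨Finset.mem_univ _, ?_⟩
    rcases ha with rfl | rfl | rfl
    · exact one_pow 2
    · exact h1sq
    · exact h2sq
  have hc3 : ({e₀, e₁, e₂} : Finset ↥(I.map χ)).card = 3 := by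
    rw [Finset.card_insert_of_notMem, Finset.card_insert_of_notMem, Finset.card_singleton]
    · simpa using h12
    · simp only [Finset.mem_insert, Finset.mem_singleton]
      push Not
      exact ⟨h01, h02⟩
  have := (Finset.card_le_card hsub).trans hle
  omega

end Five

/-! ### unipotent elements, stable lines -/

section Unip

variable {p : ℕ} [Fact p.Prime] {V : Type*} [AddCommGroup V] [Module (ZMod p) V]

/-- a unipotent endomorphism (`(z - 1)² = 0`) in characteristic `p` has `z ^ p = 1` -/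
theorem pow_char_eq_one_of_sub_one_sq (z : Module.End (ZMod p) V) (h : (z - 1) ^ 2 = 0) :
    z ^ p = 1 := by
  set n := z - 1 with hn
  have hz : z = 1 + n := by rw [hn]; abel
  have hnn : n * n = 0 := by rw [← pow_two]; exact h
  have hpow : ∀ k : ℕ, (1 + n) ^ k = 1 + k • n := by
    intro k
    induction k with
    | zero => simp
    | succ k ih =>
      rw [pow_succ, ih, add_mul, mul_add, mul_add, mul_one, one_mul, mul_one, smul_mul_assoc, hnn,
        smul_zero, add_zero, succ_nsmul]
      abel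
  rw [hz, hpow p]
  have : (p : ℕ) • n = 0 := by
    rw [← Nat.cast_smul_eq_nsmul (ZMod p), ZMod.natCast_self, zero_smul]
  rw [this, add_zero]

end Unip

section Maschke

variable {p : ℕ} [Fact p.Prime] {G : Type*} [Group G] {V : Type*} [AddCommGroup V]
  [Module (ZMod p) V] [Module.Finite (ZMod p) V]
  (ρ : G →* Module.End (ZMod p) V)

/-- **(D)** if the image of `ρ` has no element of order `p`, every subgroup stabilising a line
of `K ⊗ V` (for ANY field `K`) has commutative image. -/
theorem comm_of_stable_line (hV : finrank (ZMod p) V = 2)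
    (hnop : ∀ g : G, ρ g ^ p = 1 → ρ g = 1)
    {K : Type*} [Field K] [Algebra (ZMod p) K] (G' : Subgroup G)
    (L : Submodule K (K ⊗[ZMod p] V)) (h0 : L ≠ ⊥) (h1 : L ≠ ⊤)
    (hst : ∀ g ∈ G', ∀ x ∈ L, (ρ g).baseChange K x ∈ L) :
    ∀ a ∈ G', ∀ b ∈ G', ρ a * ρ b = ρ b * ρ a := by
  have hVK : finrank K (K ⊗[ZMod p] V) = 2 := by rw [Module.finrank_baseChange, hV]
  have hL1 := finrank_eq_one_of_ne hVK L h0 h1
  obtain ⟨v, hvL, hv0'⟩ := Submodule.exists_mem_ne_zero_of_ne_bot h0
  -- the character on the line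
  have hchar : ∀ g ∈ G', ∃ α : K, (ρ g).baseChange K v = α • v := fun g hg =>
    exists_smul_eq_of_mem_line L hL1 hvL hv0' (hst g hg v hvL)
  have hmul : ∀ g h : G, (ρ (g * h)).baseChange K = (ρ g).baseChange K * (ρ h).baseChange K := by
    intro g h
    rw [map_mul, LinearMap.baseChange_mul]
  have hone : (ρ 1).baseChange K = (1 : Module.End K (K ⊗[ZMod p] V)) := by
    rw [map_one, LinearMap.baseChange_one]
  intro a ha b hb
  obtain ⟨α, hα⟩ := hchar a ha
  obtain ⟨β, hβ⟩ := hchar b hb
  obtain ⟨α', hα'⟩ := hchar a⁻¹ (G'.inv_mem ha)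
  obtain ⟨β', hβ'⟩ := hchar b⁻¹ (G'.inv_mem hb)
  have hαα' : α * α' = 1 := by
    have h2 : (ρ (a * a⁻¹)).baseChange K v = v := by
      rw [mul_inv_cancel, hone, Module.End.one_apply]
    rw [hmul, Module.End.mul_apply, hα', map_smul, hα, smul_smul] at h2
    rw [mul_comm]
    exact eq_one_of_smul_eq_self hv0' h2
  have hββ' : β * β' = 1 := by
    have h2 : (ρ (b * b⁻¹)).baseChange K v = v := by
      rw [mul_inv_cancel, hone, Module.End.one_apply]
    rw [hmul, Module.End.mul_apply, hβ', map_smul, hβ, smul_smul] at h2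
    rw [mul_comm]
    exact eq_one_of_smul_eq_self hv0' h2
  -- the commutator
  set z : G := a * b * a⁻¹ * b⁻¹ with hz
  have hZv : (ρ z).baseChange K v = v := by
    have h6 : β' * (α' * (β * α)) = 1 := by
      calc β' * (α' * (β * α)) = (α * α') * (β * β') := by ring
        _ = 1 := by rw [hαα', hββ', one_mul]
    calc (ρ z).baseChange K v
        = (ρ a).baseChange K ((ρ b).baseChange K ((ρ a⁻¹).baseChange K
            ((ρ b⁻¹).baseChange K v))) := by
          rw [hz, hmul, hmul, hmul]; rfl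
      _ = (β' * (α' * (β * α))) • v := by
          simp only [map_smul, hα, hβ, hα', hβ', smul_smul]
          congr 1
          ring
      _ = v := by rw [h6, one_smul]
  have hdetz : LinearMap.det (ρ z) = 1 := by
    have h2 : ρ a * ρ a⁻¹ = 1 := by rw [← map_mul, mul_inv_cancel, map_one]
    have h3 : ρ b * ρ b⁻¹ = 1 := by rw [← map_mul, mul_inv_cancel, map_one]
    have h2' := congrArg LinearMap.det h2
    have h3' := congrArg LinearMap.det h3
    rw [map_mul, map_one] at h2' h3'
    rw [hz, map_mul, map_mul, map_mul, map_mul, map_mul, map_mul]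
    calc LinearMap.det (ρ a) * LinearMap.det (ρ b) * LinearMap.det (ρ a⁻¹) * LinearMap.det (ρ b⁻¹)
        = (LinearMap.det (ρ a) * LinearMap.det (ρ a⁻¹)) *
          (LinearMap.det (ρ b) * LinearMap.det (ρ b⁻¹)) := by ring
      _ = 1 := by rw [h2', h3', one_mul]
  have hdetZ : LinearMap.det ((ρ z).baseChange K) = 1 := by
    rw [LinearMap.det_baseChange, hdetz, map_one]
  have hsq : ((ρ z).baseChange K - 1) ^ 2 = 0 :=
    sub_one_sq_eq_zero_of_fixed hVK _ hdetZ hv0' hZv
  have hsq' : (ρ z - 1) ^ 2 = 0 := by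
    apply LinearMap.baseChangeHom_injective (ZMod p) V K
    change Module.End.baseChangeHom (ZMod p) K V ((ρ z - 1) ^ 2) =
      Module.End.baseChangeHom (ZMod p) K V 0
    rw [map_pow, map_sub, map_one, map_zero]
    exact hsq
  have hz1 : ρ z = 1 := hnop z (pow_char_eq_one_of_sub_one_sq (ρ z) hsq')
  -- `ρ (a b a⁻¹ b⁻¹) = 1`
  have h5 : ρ a * ρ b = ρ z * (ρ b * ρ a) := by
    rw [hz, ← map_mul, ← map_mul, ← map_mul]
    congr 1
    group
  rw [h5, hz1, one_mul]

end Maschke

/-! ### `p = 5`: no stable line for subgroups of index `≤ 2` -/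

section FiveFinal

variable {G : Type} [Group G] {V : Type} [AddCommGroup V]
  [Module (ZMod 5) V] [Module.Finite (ZMod 5) V]
  (ρ : G →* Module.End (ZMod 5) V) (I : Subgroup G) (c : G)

/-- **`p = 5`, prime-to-`5` image**: for every subgroup `G'` of index `≤ 2` and every field `K`,
`K ⊗ V` has no proper nonzero `G'`-stable subspace. -/
theorem no_stable_line_five (hV : finrank (ZMod 5) V = 2)
    (hirr : ∀ L : Submodule (ZMod 5) V, (∀ g, ∀ x ∈ L, ρ g x ∈ L) → L = ⊥ ∨ L = ⊤)
    (hgen : ∀ U : Subgroup G, U.Normal → ρ.ker ≤ U → I ≤ U → U = ⊤)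
    (hcyc : ∀ (H : Type) [Group H] [Finite H] (f : G →* H), ρ.ker ≤ f.ker → IsPGroup 2 H →
      IsCyclic ↥(I.map f))
    (hc : ρ c * ρ c = 1) (hcdet : LinearMap.det (ρ c) = -1)
    (hdet : ∃ g, LinearMap.det (ρ g) = 2)
    (hnop : ∀ g : G, ρ g ^ 5 = 1 → ρ g = 1)
    (G' : Subgroup G) (hG' : G'.index = 2 ∨ G' = ⊤)
    {K : Type*} [Field K] [Algebra (ZMod 5) K]
    (L : Submodule K (K ⊗[ZMod 5] V))
    (hst : ∀ g ∈ G', ∀ x ∈ L, (ρ g).baseChange K x ∈ L) : L = ⊥ ∨ L = ⊤ := by
  by_contra hL
  push Not at hL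
  exact not_comm_of_index_two ρ I c hV hirr hgen hcyc hc hcdet hdet G' hG'
    (comm_of_stable_line ρ hV hnop G' L hL.1 hL.2 hst)

end FiveFinal

end Fermat.Agent.GE8.Irr2.PrimeToP
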